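import Fermat.Agent.Lib.HeckeComm.H2_TowerDefs
import Fermat.Agent.S24.Asm.Degree
import Fermat.Agent.S24.Closure.Final

/-!
# COMM (helper2): package D — the degrees `[F_M : F_X] * ψ(X) = ψ(M)`, finiteness
-/

set_option autoImplicit false
set_option linter.style.haveILetI false
set_option linter.unusedSectionVars false

noncomputable section

namespace Fermat.Agent.Lib.HeckeComm

open AlgebraicCurve ModularCurve Fermat.Agent.S24 IntermediateField

local notation "Kb" => AlgebraicClosure ℚ

/-- `Q̄(j)` inside the Laurent series. -/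
def E0 : IntermediateField Kb (LaurentSeries Kb) := IntermediateField.adjoin Kb {jBar}

theorem E0_le (X : ℕ) [NeZero X] : E0 ≤ modularFunctionFieldBar X := by
  rw [E0, adjoin_le_iff]
  rintro _ rfl
  exact jBar_mem X

theorem map_adjoin_jF (X : ℕ) [NeZero X] :
    (Kb⟮jF X⟯).map (modularFunctionFieldBar X).val = E0 := by
  rw [adjoin_map, Set.image_singleton]
  rfl

theorem comap_E0 (X : ℕ) [NeZero X] : E0.comap (modularFunctionFieldBar X).val = Kb⟮jF X⟯ := by
  ext x
  show (modularFunctionFieldBar X).val x ∈ E0 ↔ _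
  constructor
  · intro hx
    rw [← map_adjoin_jF X] at hx
    obtain ⟨y, hy, hyx⟩ := hx
    have : y = x := Subtype.ext hyx
    rwa [← this]
  · intro hx
    rw [← map_adjoin_jF X]
    exact ⟨x, hx, rfl⟩

theorem relfinrank_E0 (X : ℕ) [NeZero X] :
    relfinrank E0 (modularFunctionFieldBar X) = dedekindPsi X := by
  have h := finrank_comap E0 (modularFunctionFieldBar X).val
  rw [fieldRange_val, comap_E0] at h
  rw [← h]
  exact asm_finrank (modClosure X)

theorem relfinrank_FN (X M : ℕ) [NeZero X] [NeZero M] (h : X ∣ M) :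
    relfinrank (modularFunctionFieldBar X) (modularFunctionFieldBar M)
      = (letI := (inclFN X M h).toRingHom.toAlgebra; Module.finrank (FN X) (FN M)) := by
  letI := (inclFN X M h).toRingHom.toAlgebra
  rw [relfinrank_eq_finrank_of_le (modularFunctionFieldBar_mono h)]
  let e : FN M ≃ₗ[FN X] ↥(extendScalars (modularFunctionFieldBar_mono h)) :=
    { toFun := fun y => ⟨y.1, y.2⟩
      invFun := fun y => ⟨y.1, y.2⟩
      map_add' := fun _ _ => rfl
      map_smul' := fun a y => Subtype.ext rfl
      left_inv := fun _ => rfl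
      right_inv := fun _ => rfl }
  exact e.finrank_eq.symm

theorem dedekindPsi_pos_h2 (N : ℕ) [NeZero N] : 0 < dedekindPsi N := by
  rw [← Fermat.Agent.S20.H19.G1]
  exact Nat.pos_of_ne_zero Subgroup.FiniteIndex.index_ne_zero

/-- **Package D**. -/
theorem stmt_Deg (X M : ℕ) [NeZero X] [NeZero M] (h : X ∣ M) : Stmt_Deg X M h := by
  unfold Stmt_Deg
  rw [← relfinrank_FN X M h, ← relfinrank_E0 X, ← relfinrank_E0 M, mul_comm]
  exact relfinrank_mul_relfinrank (E0_le X) (modularFunctionFieldBar_mono h)

theorem finrank_FN_pos (X M : ℕ) [NeZero X] [NeZero M] (h : X ∣ M) :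
    0 < (letI := (inclFN X M h).toRingHom.toAlgebra; Module.finrank (FN X) (FN M)) := by
  have h1 := stmt_Deg X M h
  unfold Stmt_Deg at h1
  have h2 := dedekindPsi_pos_h2 M
  rw [← h1] at h2
  exact Nat.pos_of_mul_pos_right h2

/-- Finiteness of `F_M / F_X`. -/
theorem stmt_Fin (X M : ℕ) [NeZero X] [NeZero M] (h : X ∣ M) : Stmt_Fin X M h := by
  unfold Stmt_Fin
  letI := (inclFN X M h).toRingHom.toAlgebra
  exact Module.finite_of_finrank_pos (finrank_FN_pos X M h)

end Fermat.Agent.Lib.HeckeComm
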