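import Fermat.Agent.Lib.HeckeComm.H2_Principle
import Fermat.Agent.GTor.H2_HKalg
import Fermat.Agent.RED.H51_HKA

/-!
# COMM (helper2): commutation of two Hecke operators from commutation of the norm functions

`T_ℓ = α_* β^*` on `Div(F_N)`, `n_ℓ f = Norm_α (β f)` (`GTor.H2.heckeNormFn`), `T_ℓ (div f) =
div (n_ℓ f)`.  By the principle (`eq_of_eq_on_principal`):
`n_ℓ ∘ n_ℓ' = n_ℓ' ∘ n_ℓ` on `F_N` ⇒ `T_ℓ T_ℓ' = T_ℓ' T_ℓ` on `Div(F_N)` ⇒ on `J₀(N)`.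
-/

set_option autoImplicit false
set_option linter.style.haveILetI false
set_option linter.unusedSectionVars false

noncomputable section

namespace Fermat.Agent.Lib.HeckeComm

open AlgebraicCurve ModularCurve Fermat.Agent.GTor Fermat.Agent.GTor.H2

local notation "Kb" => AlgebraicClosure ℚ

/-- `F_N · ℚ̄` has principal divisors. -/
theorem hasPrincipalDivisors_FN (N : ℕ) [NeZero N] : HasPrincipalDivisors Kb (FNL Kb N) :=
  Fermat.Agent.RED.H51.stmt_FFB_principal _ _ (Fermat.Agent.RED.H95.stmt_HKA_isFF N)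

section

variable (N ℓ : ℕ) [NeZero N] [NeZero ℓ]
  (hα : HeckeAlphaBarIntegral Kb N ℓ) (hβ : HeckeBetaBarIntegral Kb N ℓ)
  [HasPrincipalDivisors Kb (laurentBaseChange Kb (modularFunctionFieldFull (N * ℓ)))]

/-- The Hecke correspondence has finite preimage supports. -/
theorem finPre_heckeDivBar : FinPre (heckeDivBar (L := Kb) hα hβ) :=
  FinPre.comp (finPre_pushforwardAlong _ hα) (finPre_pullbackAlong _ hβ)

/-- `T_ℓ (div f) = div (n_ℓ f)`. -/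
theorem heckeDivBar_ord (hfin : FiniteAlong Kb (heckeAlphaBar Kb N ℓ))
    (hN : NormFormulaAlong Kb (heckeAlphaBar Kb N ℓ) hfin)
    (D : Divisor Kb (FNL Kb N)) {f : FNL Kb N} (hf : f ≠ 0)
    (hD : ∀ v : Place Kb (FNL Kb N), D v = v.ord f) (v : Place Kb (FNL Kb N)) :
    heckeDivBar (L := Kb) hα hβ D v = v.ord (heckeNormFn Kb N ℓ f) := by
  have h := correspondence_ord Kb N ℓ hα hβ hfin hN 1 D hf (fun v => by rw [one_mul, hD v]) v
  rw [one_mul] at h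
  exact h

end

/-- Two Hecke correspondences commute on divisors if their norm functions commute. -/
theorem heckeDivBar_comm_of (N ℓ ℓ' : ℕ) [NeZero N] [NeZero ℓ] [NeZero ℓ']
    (hα : HeckeAlphaBarIntegral Kb N ℓ) (hβ : HeckeBetaBarIntegral Kb N ℓ)
    (hP : HasPrincipalDivisors Kb (laurentBaseChange Kb (modularFunctionFieldFull (N * ℓ))))
    (hfin : FiniteAlong Kb (heckeAlphaBar Kb N ℓ))
    (hN : NormFormulaAlong Kb (heckeAlphaBar Kb N ℓ) hfin)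
    (hα' : HeckeAlphaBarIntegral Kb N ℓ') (hβ' : HeckeBetaBarIntegral Kb N ℓ')
    (hP' : HasPrincipalDivisors Kb (laurentBaseChange Kb (modularFunctionFieldFull (N * ℓ'))))
    (hfin' : FiniteAlong Kb (heckeAlphaBar Kb N ℓ'))
    (hN' : NormFormulaAlong Kb (heckeAlphaBar Kb N ℓ') hfin')
    (hcomm : ∀ f : FNL Kb N, f ≠ 0 →
      heckeNormFn Kb N ℓ (heckeNormFn Kb N ℓ' f) = heckeNormFn Kb N ℓ' (heckeNormFn Kb N ℓ f)) :
    (heckeDivBar (L := Kb) hα hβ).comp (heckeDivBar (L := Kb) hα' hβ')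
      = (heckeDivBar (L := Kb) hα' hβ').comp (heckeDivBar (L := Kb) hα hβ) := by
  haveI := hasPrincipalDivisors_FN N
  refine eq_of_eq_on_principal _ _
    (FinPre.comp (finPre_heckeDivBar N ℓ hα hβ) (finPre_heckeDivBar N ℓ' hα' hβ'))
    (FinPre.comp (finPre_heckeDivBar N ℓ' hα' hβ') (finPre_heckeDivBar N ℓ hα hβ)) ?_
  intro f D hf hD
  apply Finsupp.ext
  intro v
  rw [AddMonoidHom.comp_apply, AddMonoidHom.comp_apply]
  have h1 := heckeDivBar_ord N ℓ' hα' hβ' hfin' hN' D hf hD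
  have h2 := heckeDivBar_ord N ℓ hα hβ hfin hN D hf hD
  have hf' : heckeNormFn Kb N ℓ' f ≠ 0 := heckeNormFn_ne_zero Kb N ℓ' hfin' hf
  have hf2 : heckeNormFn Kb N ℓ f ≠ 0 := heckeNormFn_ne_zero Kb N ℓ hfin hf
  rw [heckeDivBar_ord N ℓ hα hβ hfin hN _ hf' h1 v,
    heckeDivBar_ord N ℓ' hα' hβ' hfin' hN' _ hf2 h2 v, hcomm f hf]

/-- The prelude's Hecke operator on `J₀(N)` is induced by `heckeDivBar`. -/
theorem heckeOperatorBar_mk (N : ℕ) [NeZero N] (ℓ : Nat.Primes)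
    (hα : haveI : NeZero (ℓ : ℕ) := ⟨ℓ.2.ne_zero⟩; HeckeAlphaBarIntegral Kb N ℓ)
    (hβ : haveI : NeZero (ℓ : ℕ) := ⟨ℓ.2.ne_zero⟩; HeckeBetaBarIntegral Kb N ℓ)
    (hP : haveI : NeZero (ℓ : ℕ) := ⟨ℓ.2.ne_zero⟩;
      HasPrincipalDivisors Kb (laurentBaseChange Kb (modularFunctionFieldFull (N * ℓ))))
    (hfin : haveI : NeZero (ℓ : ℕ) := ⟨ℓ.2.ne_zero⟩; FiniteAlong Kb (heckeAlphaBar Kb N ℓ))
    (hFI : haveI : NeZero (ℓ : ℕ) := ⟨ℓ.2.ne_zero⟩;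
      FundamentalIdentityAlong Kb (heckeBetaBar Kb N ℓ) hβ)
    (hN : haveI : NeZero (ℓ : ℕ) := ⟨ℓ.2.ne_zero⟩;
      NormFormulaAlong Kb (heckeAlphaBar Kb N ℓ) hfin)
    (D : Divisor.degZero (K := Kb) (F := FNL Kb N)) :
    haveI : NeZero (ℓ : ℕ) := ⟨ℓ.2.ne_zero⟩
    heckeOperatorBar N ℓ (Pic0.mk D)
      = Pic0.mk (Pic0.degZeroCorrespondence (heckeBetaBar Kb N ℓ) (heckeAlphaBar Kb N ℓ)
          hβ hα hFI D) := by
  haveI : NeZero (ℓ : ℕ) := ⟨ℓ.2.ne_zero⟩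
  rw [heckeOperatorBar_apply, heckeOperatorAlong_eq hα hβ hFI hfin hN]
  rfl

/-- **Commutation of `T_ℓ` and `T_ℓ'` on `J₀(N)`** from the commutation of the norm functions. -/
theorem heckeOperatorBar_comm_of (N : ℕ) [NeZero N] (ℓ ℓ' : Nat.Primes)
    (hcomm : haveI : NeZero (ℓ : ℕ) := ⟨ℓ.2.ne_zero⟩
      haveI : NeZero (ℓ' : ℕ) := ⟨ℓ'.2.ne_zero⟩
      ∀ f : FNL Kb N, f ≠ 0 →
      heckeNormFn Kb N ℓ (heckeNormFn Kb N ℓ' f) = heckeNormFn Kb N ℓ' (heckeNormFn Kb N ℓ f)) :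
    heckeOperatorBar N ℓ * heckeOperatorBar N ℓ' = heckeOperatorBar N ℓ' * heckeOperatorBar N ℓ := by
  haveI : NeZero (ℓ : ℕ) := ⟨ℓ.2.ne_zero⟩
  haveI : NeZero (ℓ' : ℕ) := ⟨ℓ'.2.ne_zero⟩
  obtain ⟨hα, hβ, hP, hfin, hFI, hN⟩ := Fermat.Agent.RED.H51.stmt_HKA N ℓ
  obtain ⟨hα', hβ', hP', hfin', hFI', hN'⟩ := Fermat.Agent.RED.H51.stmt_HKA N ℓ'
  have hdiv := heckeDivBar_comm_of N ℓ ℓ' hα hβ hP hfin hN hα' hβ' hP' hfin' hN' hcomm
  apply LinearMap.ext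
  intro x
  obtain ⟨D, rfl⟩ := Pic0.mk_surjective x
  rw [Module.End.mul_apply, Module.End.mul_apply,
    heckeOperatorBar_mk N ℓ' hα' hβ' hP' hfin' hFI' hN' D,
    heckeOperatorBar_mk N ℓ hα hβ hP hfin hFI hN D,
    heckeOperatorBar_mk N ℓ hα hβ hP hfin hFI hN,
    heckeOperatorBar_mk N ℓ' hα' hβ' hP' hfin' hFI' hN']
  congr 1
  apply Subtype.ext
  rw [Pic0.coe_degZeroCorrespondence, Pic0.coe_degZeroCorrespondence,
    Pic0.coe_degZeroCorrespondence, Pic0.coe_degZeroCorrespondence]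
  exact congrArg (fun Φ : Divisor Kb (FNL Kb N) →+ Divisor Kb (FNL Kb N) =>
    Φ (D : Divisor Kb (FNL Kb N))) hdiv

end Fermat.Agent.Lib.HeckeComm
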