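import Mathlib

/-!
# COMM (helper2): abstract norm lemmas

* `normAlongHom φ x` : the norm of `x` along a ring homomorphism of fields.
* `normAlongHom_comp` : transitivity.
* `norm_map_of_basis` : a commutative square mapping a basis to a basis commutes with norms.
* `normAlongHom_baseChange` : base change of the norm in a square `K → K'`, `M → Z` with a common
  primitive element and equal degrees.
-/

set_option autoImplicit false
set_option linter.style.haveILetI false
set_option linter.unusedSectionVars false

noncomputable section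

namespace Fermat.Agent.Lib.HeckeComm

/-- The norm along a ring homomorphism. -/
def normAlongHom {A B : Type*} [Field A] [Field B] (φ : A →+* B) (x : B) : A :=
  letI := φ.toAlgebra
  Algebra.norm A x

theorem normAlongHom_comp {A B C : Type*} [Field A] [Field B] [Field C]
    (φ : A →+* B) (ψ : B →+* C) (z : C) :
    normAlongHom φ (normAlongHom ψ z) = normAlongHom (ψ.comp φ) z := by
  letI := φ.toAlgebra
  letI := ψ.toAlgebra
  letI := (ψ.comp φ).toAlgebra
  haveI : IsScalarTower A B C := IsScalarTower.of_algebraMap_eq fun _ => rfl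
  exact Algebra.norm_norm

/-- A commutative square which maps a basis to a basis commutes with the norms. -/
theorem norm_map_of_basis {K K' M Z : Type*} [Field K] [Field K'] [Field M] [Field Z]
    [Algebra K K'] [Algebra M Z] (σ : K →+* M) (τ : K' →+* Z)
    (hsq : ∀ a : K, τ (algebraMap K K' a) = algebraMap M Z (σ a))
    {ι : Type*} [Fintype ι] [DecidableEq ι] (b : Module.Basis ι K K') (b' : Module.Basis ι M Z)
    (hb : ∀ i, τ (b i) = b' i) (x : K') :
    σ (Algebra.norm K x) = Algebra.norm M (τ x) := by
  rw [Algebra.norm_eq_matrix_det b, Algebra.norm_eq_matrix_det b', RingHom.map_det]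
  congr 1
  ext i j
  rw [RingHom.mapMatrix_apply, Matrix.map_apply, Algebra.leftMulMatrix_eq_repr_mul,
    Algebra.leftMulMatrix_eq_repr_mul]
  -- `τ x * b' j = ∑ k, σ (repr k) • b' k`
  have h1 : x * b j = ∑ k, b.repr (x * b j) k • b k := (b.sum_repr (x * b j)).symm
  have h2 : τ x * b' j = ∑ k, σ (b.repr (x * b j) k) • b' k := by
    rw [← hb j, ← map_mul, h1, map_sum]
    refine Finset.sum_congr rfl fun k _ => ?_
    rw [Algebra.smul_def, map_mul, hsq, hb, ← h1, Algebra.smul_def]
  rw [h2, map_sum, Finset.sum_apply']
  simp only [map_smul, Module.Basis.repr_self, Finsupp.smul_apply, Finsupp.single_apply, smul_eq_mul,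
    mul_ite, mul_one, mul_zero]
  rw [Finset.sum_ite_eq' Finset.univ i]
  simp

/-- Base change of the norm: in a commutative square `τ ∘ α = ι ∘ σ` of fields in which `K' / K` is
generated by `x₀`, `Z / M` by `τ x₀`, and the two degrees agree, `σ ∘ Norm_α = Norm_ι ∘ τ`. -/
theorem normAlongHom_baseChange {K K' M Z : Type*} [Field K] [Field K'] [Field M] [Field Z]
    (α : K →+* K') (ι : M →+* Z) (σ : K →+* M) (τ : K' →+* Z)
    (hsq : ∀ a : K, τ (α a) = ι (σ a))
    (hfin : letI := α.toAlgebra; Module.Finite K K')
    (hfin' : letI := ι.toAlgebra; Module.Finite M Z)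
    (x₀ : K')
    (hgen : letI := α.toAlgebra; IntermediateField.adjoin K {x₀} = ⊤)
    (hgen' : letI := ι.toAlgebra; IntermediateField.adjoin M {τ x₀} = ⊤)
    (hdeg : (letI := α.toAlgebra; Module.finrank K K') = (letI := ι.toAlgebra; Module.finrank M Z))
    (x : K') : σ (normAlongHom α x) = normAlongHom ι (τ x) := by
  letI := α.toAlgebra
  letI := ι.toAlgebra
  haveI : Module.Finite K K' := hfin
  haveI : Module.Finite M Z := hfin'
  have hint : IsIntegral K x₀ := Algebra.IsIntegral.isIntegral x₀
  have hint' : IsIntegral M (τ x₀) := Algebra.IsIntegral.isIntegral (τ x₀)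
  have hn : (minpoly K x₀).natDegree = Module.finrank K K' := by
    rw [← IntermediateField.adjoin.finrank hint, hgen, IntermediateField.finrank_top']
  have hn' : (minpoly M (τ x₀)).natDegree = Module.finrank M Z := by
    rw [← IntermediateField.adjoin.finrank hint', hgen', IntermediateField.finrank_top']
  have hnn : (minpoly K x₀).natDegree = (minpoly M (τ x₀)).natDegree := by
    rw [hn, hn', hdeg]
  haveI : Nonempty (Fin (minpoly K x₀).natDegree) := ⟨⟨0, minpoly.natDegree_pos hint⟩⟩
  haveI : Nonempty (Fin (minpoly M (τ x₀)).natDegree) := ⟨⟨0, minpoly.natDegree_pos hint'⟩⟩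
  let b : Module.Basis (Fin (minpoly K x₀).natDegree) K K' :=
    basisOfLinearIndependentOfCardEqFinrank (linearIndependent_pow x₀)
      (by rw [Fintype.card_fin, hn])
  let b₀ : Module.Basis (Fin (minpoly M (τ x₀)).natDegree) M Z :=
    basisOfLinearIndependentOfCardEqFinrank (linearIndependent_pow (τ x₀))
      (by rw [Fintype.card_fin, hn'])
  let b' : Module.Basis (Fin (minpoly K x₀).natDegree) M Z := b₀.reindex (finCongr hnn.symm)
  have hb : ∀ i, τ (b i) = b' i := by
    intro i
    simp only [b, b', b₀, coe_basisOfLinearIndependentOfCardEqFinrank, Module.Basis.reindex_apply,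
      map_pow]
    rfl
  exact norm_map_of_basis σ τ hsq b b' hb x

end Fermat.Agent.Lib.HeckeComm
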