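import Fermat.Agent.S24.Closure.Phi
import Fermat.Prelude.Def_ModularCurve_HeckeOperator
import Fermat.Agent.Lib.HeckeComm.H2_NormBC

/-!
# COMM (helper2): the tower of the fields `F_X ⊂ F_M`, `X ∣ M` — definitions and interfaces

* `inclFN X M h : F_X →ₐ F_M` the inclusion (`= heckeAlphaBar` for `M = X * ℓ`, by `rfl`).
* `degFN X d M h : F_X →ₐ F_M`, `f(q) ↦ f(q ^ d)`, for `X * d ∣ M` (`= heckeBetaBar` for `M = X * d`).
* `Stmt_GenJ X M h` (package G): `F_M = F_X (j (q ^ M))`.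
* `Stmt_Deg X M h` (package D): `[F_M : F_X] * ψ(X) = ψ(M)`.
-/

set_option autoImplicit false
set_option linter.style.haveILetI false
set_option linter.unusedSectionVars false

noncomputable section

namespace Fermat.Agent.Lib.HeckeComm

open AlgebraicCurve ModularCurve Fermat.Agent.S24

local notation "Kb" => AlgebraicClosure ℚ

theorem laurentBaseChange_mono_h2 {F₀ F₁ : IntermediateField ℚ (LaurentSeries ℚ)}
    (h : F₀ ≤ F₁) : laurentBaseChange Kb F₀ ≤ laurentBaseChange Kb F₁ := by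
  rw [laurentBaseChange, IntermediateField.adjoin_le_iff]
  rintro _ ⟨y, hy, rfl⟩
  exact coeffEmb_mem_laurentBaseChange Kb (h hy)

theorem modularFunctionFieldBar_mono {X M : ℕ} [NeZero X] [NeZero M] (h : X ∣ M) :
    modularFunctionFieldBar X ≤ modularFunctionFieldBar M :=
  laurentBaseChange_mono_h2 (full_degeneracy_le h)

/-- The inclusion `F_X ⊂ F_M` for `X ∣ M`. -/
def inclFN (X M : ℕ) [NeZero X] [NeZero M] (h : X ∣ M) : FN X →ₐ[Kb] FN M :=
  IntermediateField.inclusion (modularFunctionFieldBar_mono h)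

@[simp]
theorem coe_inclFN (X M : ℕ) [NeZero X] [NeZero M] (h : X ∣ M) (x : FN X) :
    (inclFN X M h x : LaurentSeries Kb) = (x : LaurentSeries Kb) :=
  IntermediateField.coe_inclusion _ x

theorem inclFN_eq_heckeAlphaBar (N ℓ : ℕ) [NeZero N] [NeZero ℓ] :
    inclFN N (N * ℓ) (dvd_mul_right N ℓ) = heckeAlphaBar Kb N ℓ := rfl

theorem inclFN_comp (X Y M : ℕ) [NeZero X] [NeZero Y] [NeZero M] (h : X ∣ Y) (h' : Y ∣ M) :
    (inclFN Y M h').comp (inclFN X Y h) = inclFN X M (h.trans h') := by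
  ext x
  rfl

theorem inclFN_jF (X M : ℕ) [NeZero X] [NeZero M] (h : X ∣ M) : inclFN X M h (jF X) = jF M :=
  Subtype.ext rfl

theorem inclFN_jdF (X M : ℕ) [NeZero X] [NeZero M] (h : X ∣ M) (d : ℕ) [NeZero d] (hd : d ∣ X) :
    inclFN X M h (jdF X d hd) = jdF M d (hd.trans h) :=
  Subtype.ext rfl

/-- **Package G**: `F_M` is generated over `F_X` by `j (q ^ M)`.
(Galois correspondence in the S24 closure `LN M / EN`: an automorphism `piN M γ` fixing
`phi M (jdF M M _)` has `γ ∈ Γ₀(M)` (`mem_Gamma0_of_smul_jdA`) hence fixes `F_M`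
(`piN_phi_of_mem_Gamma0`); so `F_M = Q̄(j, j_M)`.) -/
def Stmt_GenJ (X M : ℕ) [NeZero X] [NeZero M] (h : X ∣ M) : Prop :=
  letI := (inclFN X M h).toRingHom.toAlgebra
  IntermediateField.adjoin (FN X) {jdF M M dvd_rfl} = ⊤

/-- **Package D**: `[F_M : F_X] * ψ(X) = ψ(M)`  (from `S24.asm_finrank` and the tower law). -/
def Stmt_Deg (X M : ℕ) [NeZero X] [NeZero M] (h : X ∣ M) : Prop :=
  (letI := (inclFN X M h).toRingHom.toAlgebra; Module.finrank (FN X) (FN M)) * dedekindPsi X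
    = dedekindPsi M

/-- Finiteness of `F_M / F_X`. -/
def Stmt_Fin (X M : ℕ) [NeZero X] [NeZero M] (h : X ∣ M) : Prop :=
  letI := (inclFN X M h).toRingHom.toAlgebra
  Module.Finite (FN X) (FN M)

end Fermat.Agent.Lib.HeckeComm
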