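import Mathlib
import Fermat.Prelude.Def_AlgebraicCurve_Correspondence
import Fermat.Agent.RED.H51_Approx

/-!
# COMM (helper2), step (P): additive maps on divisors are determined by principal divisors

`Φ, Ψ : Div(F) → Div(F')` additive with *finite preimage supports* (for every place `w` of `F'`
only finitely many places `v` of `F` have `Φ(v)(w) ≠ 0`), e.g. composites of push-forwards and
pull-backs.  If `Φ` and `Ψ` agree on principal divisors, then `Φ = Ψ`
(weak approximation: isolate `v` by a function with `ord_v = 1` and `ord = 0` on a finite set).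
-/

set_option autoImplicit false
set_option linter.style.haveILetI false
set_option linter.unusedSectionVars false

noncomputable section

namespace Fermat.Agent.Lib.HeckeComm

open AlgebraicCurve

section General

variable {K F F' F'' : Type*} [Field K] [Field F] [Field F'] [Field F'']
  [Algebra K F] [Algebra K F'] [Algebra K F'']

/-- `Φ` has finite preimage supports. -/
def FinPre (Φ : Divisor K F →+ Divisor K F') : Prop :=
  ∀ w : Place K F', {v : Place K F | Φ (Finsupp.single v 1) w ≠ 0}.Finite

theorem map_single (Φ : Divisor K F →+ Divisor K F') (v : Place K F) (n : ℤ) :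
    Φ (Finsupp.single v n) = n • Φ (Finsupp.single v 1) := by
  rw [← map_zsmul, Finsupp.smul_single, smul_eq_mul, mul_one]

/-- Evaluation of an additive map on divisors. -/
theorem apply_eq_sum (Φ : Divisor K F →+ Divisor K F') (D : Divisor K F) (w : Place K F') :
    Φ D w = ∑ v ∈ D.support, D v * Φ (Finsupp.single v 1) w := by
  conv_lhs => rw [← Finsupp.sum_single D]
  rw [Finsupp.sum, map_sum, Finsupp.finsetSum_apply]
  refine Finset.sum_congr rfl fun v _ => ?_
  rw [map_single, Finsupp.smul_apply, smul_eq_mul]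

theorem FinPre.comp {Φ₂ : Divisor K F' →+ Divisor K F''} {Φ₁ : Divisor K F →+ Divisor K F'}
    (h₂ : FinPre Φ₂) (h₁ : FinPre Φ₁) : FinPre (Φ₂.comp Φ₁) := by
  intro w
  have hfin : (⋃ u ∈ {u : Place K F' | Φ₂ (Finsupp.single u 1) w ≠ 0},
      {v : Place K F | Φ₁ (Finsupp.single v 1) u ≠ 0}).Finite :=
    Set.Finite.biUnion (h₂ w) fun u _ => h₁ u
  refine hfin.subset fun v hv => ?_
  rw [Set.mem_ofPred_eq, AddMonoidHom.comp_apply, apply_eq_sum] at hv
  obtain ⟨u, hu, hne⟩ := Finset.exists_ne_zero_of_sum_ne_zero hv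
  rw [Set.mem_iUnion₂]
  refine ⟨u, ?_, ?_⟩
  · exact fun h0 => hne (by rw [h0, mul_zero])
  · exact fun h0 => hne (by rw [h0, zero_mul])

/-- **The principle.** -/
theorem eq_of_eq_on_principal [HasPrincipalDivisors K F]
    (Φ Ψ : Divisor K F →+ Divisor K F') (hΦ : FinPre Φ) (hΨ : FinPre Ψ)
    (h : ∀ (f : F) (D : Divisor K F), f ≠ 0 → (∀ v, D v = v.ord f) → Φ D = Ψ D) : Φ = Ψ := by
  classical
  apply Finsupp.addHom_ext
  intro v n
  rw [map_single Φ, map_single Ψ]
  congr 1
  apply Finsupp.ext
  intro w
  -- the finite set of places to avoid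
  set S : Finset (Place K F) := ((hΦ w).toFinset ∪ (hΨ w).toFinset) ∪ {v} with hS
  obtain ⟨z, hz0, hz⟩ := Fermat.Agent.RED.H51.exists_ord_eq_family S
    (fun v' => if v' = v then 1 else 0)
  obtain ⟨D, hD, -⟩ := HasPrincipalDivisors.exists_divisor (K := K) z hz0
  have hvS : v ∈ S := by rw [hS]; exact Finset.mem_union_right _ (Finset.mem_singleton_self v)
  have hDv : D v = 1 := by rw [hD v, hz v hvS, if_pos rfl]
  have hDS : ∀ v' ∈ S, v' ≠ v → D v' = 0 := fun v' hv' hne => by
    rw [hD v', hz v' hv', if_neg hne]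
  have key : ∀ (Θ : Divisor K F →+ Divisor K F'),
      {v' : Place K F | Θ (Finsupp.single v' 1) w ≠ 0} ⊆ (S : Set (Place K F)) →
      Θ D w = Θ (Finsupp.single v 1) w := by
    intro Θ hΘ
    rw [apply_eq_sum]
    by_cases hvD : v ∈ D.support
    · rw [Finset.sum_eq_single_of_mem v hvD, hDv, one_mul]
      intro v' _ hne
      by_cases hv' : v' ∈ S
      · rw [hDS v' hv' hne, zero_mul]
      · have : Θ (Finsupp.single v' 1) w = 0 := by
          by_contra h0
          exact hv' (hΘ h0)
        rw [this, mul_zero]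
    · exfalso
      rw [Finsupp.notMem_support_iff, hDv] at hvD
      exact one_ne_zero hvD
  have hΦS : {v' : Place K F | Φ (Finsupp.single v' 1) w ≠ 0} ⊆ (S : Set (Place K F)) := by
    intro v' hv'
    rw [hS]
    exact Finset.mem_coe.mpr (Finset.mem_union_left _ (Finset.mem_union_left _
      ((hΦ w).mem_toFinset.mpr hv')))
  have hΨS : {v' : Place K F | Ψ (Finsupp.single v' 1) w ≠ 0} ⊆ (S : Set (Place K F)) := by
    intro v' hv'
    rw [hS]
    exact Finset.mem_coe.mpr (Finset.mem_union_left _ (Finset.mem_union_right _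
      ((hΨ w).mem_toFinset.mpr hv')))
  rw [← key Φ hΦS, ← key Ψ hΨS, h z D hz0 hD]

end General

section Along

variable {K F F' : Type*} [Field K] [Field F] [Field F'] [Algebra K F] [Algebra K F']

theorem finPre_pullbackAlong [HasPrincipalDivisors K F'] (φ : F →ₐ[K] F')
    (hφ : φ.toRingHom.IsIntegral) : FinPre (Divisor.pullbackAlong φ hφ) := by
  intro w
  refine (Set.finite_singleton (w.restrictAlong φ hφ)).subset fun v hv => ?_
  rw [Set.mem_ofPred_eq, Divisor.pullbackAlong_apply] at hv
  rw [Set.mem_singleton_iff]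
  by_contra hne
  apply hv
  rw [Finsupp.single_eq_of_ne (fun h => hne h.symm), mul_zero]

theorem finPre_pushforwardAlong [HasPrincipalDivisors K F'] (φ : F →ₐ[K] F')
    (hφ : φ.toRingHom.IsIntegral) : FinPre (Divisor.pushforwardAlong φ hφ) := by
  intro v
  have hfin : {w : Place K F' | w.restrictAlong φ hφ = v}.Finite := by
    letI := algebraAlong φ
    haveI := isScalarTower_along φ
    haveI := isIntegral_along φ hφ
    exact Place.restrict_fiber_finite v
  refine hfin.subset fun w hw => ?_
  rw [Set.mem_ofPred_eq, Divisor.pushforwardAlong_single] at hw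
  rw [Set.mem_ofPred_eq]
  by_contra hne
  apply hw
  rw [Finsupp.single_eq_of_ne (fun h => hne h.symm)]

end Along

end Fermat.Agent.Lib.HeckeComm
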