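import Fermat.Agent.GTor.H44_NormSeries

/-!
# COMM (helper2), step (N-good): the formal Hecke norm series commute

For coprime `ℓ, ℓ'` and a field `K` with primitive `ℓ`-th and `ℓ'`-th roots of unity,
`normSeries K ℓ (normSeries K ℓ' s) = normSeries K ℓ' (normSeries K ℓ s)`.
Both sides, expanded in `q^(1/(ℓℓ'))`, are
`s(q^(ℓ²ℓ'²)) · ∏_ξ s(ξ q^(ℓ²)) · ∏_ζ s(ζ q^(ℓ'²)) · ∏_{ζ,ξ} s(ζ ξ q)`.
-/

set_option autoImplicit false
set_option linter.unusedSectionVars false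
set_option linter.style.haveILetI false

noncomputable section

namespace Fermat.Agent.Lib.HeckeComm

open HahnSeries ModularCurve Fermat.Agent.GTor.H44

section Ring

variable {K : Type*} [CommRing K]

theorem qExpand_comm (m n : ℕ) [NeZero m] [NeZero n] (s : LaurentSeries K) :
    qExpand K m (qExpand K n s) = qExpand K n (qExpand K m s) := by
  haveI : NeZero (m * n) := ⟨Nat.mul_ne_zero (NeZero.ne m) (NeZero.ne n)⟩
  haveI : NeZero (n * m) := ⟨Nat.mul_ne_zero (NeZero.ne n) (NeZero.ne m)⟩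
  rw [qExpand_qExpand, qExpand_qExpand]
  exact qExpand_congr (Nat.mul_comm m n) s

/-- `s(w^m q^m) = (s(q^m))(w q)`. -/
theorem qExpand_twistBy (m : ℕ) [NeZero m] (w : Kˣ) (s : LaurentSeries K) :
    qExpand K m (twistBy (w ^ m) s) = twistBy w (qExpand K m s) := by
  ext k
  by_cases hk : (m : ℤ) ∣ k
  · obtain ⟨j, rfl⟩ := hk
    rw [qExpand_coeff_mul, twistBy_coeff, twistBy_coeff, qExpand_coeff_mul, ← zpow_natCast,
      ← zpow_mul]
  · rw [qExpand_coeff_of_not_dvd _ _ hk, twistBy_coeff, qExpand_coeff_of_not_dvd _ _ hk,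
      mul_zero]

end Ring

section Field

variable {K : Type*} [Field K]

/-- `ζ ↦ ζ ^ m` permutes the `ℓ`-th roots of unity if `m` is prime to `ℓ`. -/
theorem prod_rootsFinset_pow {M : Type*} [CommMonoid M] (ℓ m : ℕ) [NeZero ℓ]
    (hco : Nat.Coprime m ℓ) (f : Kˣ → M) :
    ∏ ζ ∈ rootsFinset K ℓ, f (ζ ^ m) = ∏ ζ ∈ rootsFinset K ℓ, f ζ := by
  -- an inverse exponent
  obtain ⟨m', hm'⟩ : ∃ m' : ℕ, ∀ ζ : Kˣ, ζ ^ ℓ = 1 → (ζ ^ m) ^ m' = ζ := by
    by_cases hℓ1 : ℓ = 1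
    · subst hℓ1
      exact ⟨0, fun ζ hζ => by rw [pow_zero]; rw [pow_one] at hζ; exact hζ.symm⟩
    · have hℓ : 1 < ℓ := by
        have := NeZero.pos ℓ
        omega
      obtain ⟨m', hm'⟩ := Nat.exists_mul_mod_eq_one_of_coprime hco hℓ
      refine ⟨m', fun ζ hζ => ?_⟩
      rw [← pow_mul]
      have h1 : m * m' = ℓ * (m * m' / ℓ) + 1 := by
        have := Nat.div_add_mod (m * m') ℓ
        rw [hm'.2] at this
        exact this.symm
      rw [h1, _root_.pow_add, pow_mul, hζ, one_pow, one_mul, pow_one]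
  refine Finset.prod_bij (fun ζ _ => ζ ^ m) ?_ ?_ ?_ (fun _ _ => rfl)
  · intro ζ hζ
    rw [mem_rootsFinset] at hζ ⊢
    rw [← pow_mul, mul_comm, pow_mul, hζ, one_pow]
  · intro ζ hζ ζ' hζ' h
    rw [mem_rootsFinset] at hζ hζ'
    have h2 : (ζ ^ m) ^ m' = (ζ' ^ m) ^ m' := by rw [h]
    rwa [hm' ζ hζ, hm' ζ' hζ'] at h2
  · intro ζ hζ
    rw [mem_rootsFinset] at hζ
    refine ⟨ζ ^ m', ?_, ?_⟩
    · rw [mem_rootsFinset, ← pow_mul, mul_comm, pow_mul, hζ, one_pow]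
    · rw [← pow_mul, mul_comm, pow_mul]
      exact hm' ζ hζ

/-- The twisted product over `μ_ℓ` commutes with `q ↦ q^m` for `m` prime to `ℓ`. -/
theorem twistProd_qExpand (ℓ m : ℕ) [NeZero ℓ] [NeZero m] (hco : Nat.Coprime m ℓ)
    (s : LaurentSeries K) :
    twistProd K ℓ (qExpand K m s) = qExpand K m (twistProd K ℓ s) := by
  unfold twistProd
  rw [map_prod]
  rw [← prod_rootsFinset_pow ℓ m hco (fun ζ => qExpand K m (twistBy ζ s))]
  refine Finset.prod_congr rfl fun ζ _ => ?_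
  rw [qExpand_twistBy]

theorem twistProd_twistProd_comm (ℓ ℓ' : ℕ) [NeZero ℓ] [NeZero ℓ'] (s : LaurentSeries K) :
    twistProd K ℓ (twistProd K ℓ' s) = twistProd K ℓ' (twistProd K ℓ s) := by
  have e : ∀ (a b : ℕ) [NeZero a] [NeZero b], twistProd K a (twistProd K b s)
      = ∏ ζ ∈ rootsFinset K a, ∏ ξ ∈ rootsFinset K b, twistBy (ζ * ξ) s := by
    intro a b _ _
    unfold twistProd
    refine Finset.prod_congr rfl fun ζ _ => ?_
    rw [map_prod]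
    refine Finset.prod_congr rfl fun ξ _ => ?_
    rw [twistBy_twistBy]
  rw [e ℓ ℓ', e ℓ' ℓ, Finset.prod_comm]
  refine Finset.prod_congr rfl fun ξ _ => Finset.prod_congr rfl fun ζ _ => ?_
  rw [mul_comm]

/-- The common expansion of `normSeries ℓ (normSeries ℓ' s)` in `q^(1/(ℓ ℓ'))`. -/
theorem qExpand_normSeries_normSeries (ℓ ℓ' : ℕ) [NeZero ℓ] [NeZero ℓ']
    (hco : Nat.Coprime ℓ' ℓ) {ζ₀ ζ₀' : Kˣ} (hζ : IsPrimitiveRoot ζ₀ ℓ)
    (hζ' : IsPrimitiveRoot ζ₀' ℓ') (s : LaurentSeries K) :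
    qExpand K ℓ' (qExpand K ℓ (normSeries K ℓ (normSeries K ℓ' s)))
      = qExpand K ℓ (qExpand K ℓ (qExpand K ℓ' (qExpand K ℓ' s)))
        * qExpand K ℓ (qExpand K ℓ (twistProd K ℓ' s))
        * (qExpand K ℓ' (qExpand K ℓ' (twistProd K ℓ s))
        * twistProd K ℓ (twistProd K ℓ' s)) := by
  rw [qExpand_normSeries hζ, map_mul]
  -- first factor
  have h1 : qExpand K ℓ' (qExpand K ℓ (qExpand K ℓ (normSeries K ℓ' s)))
      = qExpand K ℓ (qExpand K ℓ (qExpand K ℓ' (qExpand K ℓ' s)))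
        * qExpand K ℓ (qExpand K ℓ (twistProd K ℓ' s)) := by
    rw [qExpand_comm ℓ' ℓ, qExpand_comm ℓ' ℓ, qExpand_normSeries hζ', map_mul, map_mul]
  -- second factor
  have h2 : qExpand K ℓ' (twistProd K ℓ (normSeries K ℓ' s))
      = qExpand K ℓ' (qExpand K ℓ' (twistProd K ℓ s))
        * twistProd K ℓ (twistProd K ℓ' s) := by
    rw [← twistProd_qExpand ℓ ℓ' hco, qExpand_normSeries hζ', twistProd_mul,
      twistProd_qExpand ℓ ℓ' hco, twistProd_qExpand ℓ ℓ' hco]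
  rw [h1, h2]

/-- **The formal Hecke norms commute.** -/
theorem normSeries_comm (ℓ ℓ' : ℕ) [NeZero ℓ] [NeZero ℓ'] (hco : Nat.Coprime ℓ ℓ')
    {ζ₀ ζ₀' : Kˣ} (hζ : IsPrimitiveRoot ζ₀ ℓ) (hζ' : IsPrimitiveRoot ζ₀' ℓ')
    (s : LaurentSeries K) :
    normSeries K ℓ (normSeries K ℓ' s) = normSeries K ℓ' (normSeries K ℓ s) := by
  apply qExpand_injective (R := K) ℓ
  apply qExpand_injective (R := K) ℓ'
  rw [qExpand_normSeries_normSeries ℓ ℓ' hco.symm hζ hζ' s, qExpand_comm ℓ' ℓ,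
    qExpand_normSeries_normSeries ℓ' ℓ hco hζ' hζ s, twistProd_twistProd_comm ℓ' ℓ]
  have e1 : qExpand K ℓ' (qExpand K ℓ' (qExpand K ℓ (qExpand K ℓ s)))
      = qExpand K ℓ (qExpand K ℓ (qExpand K ℓ' (qExpand K ℓ' s))) := by
    rw [qExpand_comm ℓ' ℓ, qExpand_comm ℓ' ℓ, qExpand_comm ℓ' ℓ, qExpand_comm ℓ' ℓ]
  rw [e1]
  ring

end Field

end Fermat.Agent.Lib.HeckeComm
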