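import Fermat.Agent.Lib.HeckeComm.H2_TowerDefs

/-!
# COMM, package G (helper44): `F_M = F_X (j (q ^ M))` for `X ∣ M`

Galois correspondence in the S24 closure `LN M / EN`: an automorphism `piN M γ` fixing
`phi M (jdF M M _)` has `γ ∈ Γ₀(M)`, hence fixes `F_M`; so `F_M = EN (j_M) = Q̄(j, j_M)`.

* `adjoin_EN_jdF M : IntermediateField.adjoin EN {jdF M M _} = ⊤` (over `EN = Q̄(j)`);
* `adjoin_jF_jdF M : IntermediateField.adjoin Q̄ {jF M, jdF M M _} = ⊤`;
* `stmt_GenJ X M h : Stmt_GenJ X M h`.
-/

set_option autoImplicit false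
set_option linter.style.haveILetI false
set_option linter.unusedSectionVars false

noncomputable section

namespace Fermat.Agent.Lib.HeckeComm.H44

open AlgebraicCurve ModularCurve Fermat.Agent.S24 Fermat.Agent.Lib.HeckeComm

local notation "Kb" => AlgebraicClosure ℚ

variable (M : ℕ) [NeZero M]

/-- An automorphism of the closure fixing `j_M` fixes `F_M`. -/
theorem fixingSubgroup_adjoin_le :
    (IntermediateField.adjoin EN {phi M (jdF M M dvd_rfl)} :
        IntermediateField EN (LN M)).fixingSubgroup
      ≤ (IsScalarTower.toAlgHom EN (FN M) (LN M)).fieldRange.fixingSubgroup := by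
  intro σ hσ
  obtain ⟨γ, rfl⟩ := piN_surjective M σ
  rw [IntermediateField.mem_fixingSubgroup_iff] at hσ ⊢
  have h1 := hσ (phi M (jdF M M dvd_rfl))
    (IntermediateField.subset_adjoin _ _ (Set.mem_singleton _))
  rw [piN_phi_jdF, phi_jdF] at h1
  have h2 := IsFractionRing.injective (AT M) (LN M) h1
  have h3 := (toAT M).injective h2
  have hγ := mem_Gamma0_of_smul_jdA M γ h3
  rintro _ ⟨y, rfl⟩
  exact piN_phi_of_mem_Gamma0 M γ hγ y

/-- The image of `F_M` in the closure is `EN (j_M)`. -/
theorem fieldRange_eq_adjoin :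
    (IsScalarTower.toAlgHom EN (FN M) (LN M)).fieldRange
      = IntermediateField.adjoin EN {phi M (jdF M M dvd_rfl)} := by
  apply le_antisymm
  · rw [← IsGalois.fixedField_fixingSubgroup
      (IntermediateField.adjoin EN {phi M (jdF M M dvd_rfl)} : IntermediateField EN (LN M)),
      IntermediateField.le_iff_le]
    exact fixingSubgroup_adjoin_le M
  · rw [IntermediateField.adjoin_le_iff]
    rintro _ rfl
    exact ⟨jdF M M dvd_rfl, rfl⟩

/-- `F_M` is generated by `j_M` over `EN = Q̄(j)`. -/
theorem adjoin_EN_jdF :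
    (IntermediateField.adjoin EN {jdF M M dvd_rfl} : IntermediateField EN (FN M)) = ⊤ := by
  apply IntermediateField.map_injective (IsScalarTower.toAlgHom EN (FN M) (LN M))
  rw [IntermediateField.adjoin_map, Set.image_singleton, ← AlgHom.fieldRange_eq_map,
    fieldRange_eq_adjoin]
  rfl

/-- An intermediate field of `F_M / Q̄` containing `j` contains the image of `EN = Q̄(j)`. -/
theorem algebraMap_EN_mem (A : IntermediateField Kb (FN M)) (hj : jF M ∈ A) (y : EN) :
    algebraMap EN (FN M) y ∈ A := by
  have hp : ∀ p : Polynomial Kb, algebraMap EN (FN M) (Polynomial.aeval tE p) ∈ A := by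
    intro p
    rw [← Polynomial.aeval_algebraMap_apply, tE_map_FN]
    have := Subalgebra.aeval_coe A.toSubalgebra (⟨jF M, hj⟩ : A.toSubalgebra) p
    have h2 : Polynomial.aeval (jF M) p
        = ((Polynomial.aeval (⟨jF M, hj⟩ : A.toSubalgebra) p : A.toSubalgebra) : FN M) := this
    rw [h2]
    exact (Polynomial.aeval (⟨jF M, hj⟩ : A.toSubalgebra) p).2
  obtain ⟨p, q, -, rfl⟩ := tE_gen y
  rw [map_div₀]
  exact div_mem (hp p) (hp q)

/-- `F_M = Q̄(j, j_M)`. -/
theorem adjoin_jF_jdF :
    (IntermediateField.adjoin Kb {jF M, jdF M M dvd_rfl} : IntermediateField Kb (FN M)) = ⊤ := by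
  have hj : jF M ∈ (IntermediateField.adjoin Kb {jF M, jdF M M dvd_rfl} :
      IntermediateField Kb (FN M)) :=
    IntermediateField.subset_adjoin _ _ (Set.mem_insert _ _)
  have hjM : jdF M M dvd_rfl ∈ (IntermediateField.adjoin Kb {jF M, jdF M M dvd_rfl} :
      IntermediateField Kb (FN M)) :=
    IntermediateField.subset_adjoin _ _ (Set.mem_insert_of_mem _ (Set.mem_singleton _))
  let B : IntermediateField EN (FN M) :=
    { (IntermediateField.adjoin Kb {jF M, jdF M M dvd_rfl} :
        IntermediateField Kb (FN M)).toSubfield with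
      algebraMap_mem' := fun y => algebraMap_EN_mem M _ hj y }
  have hB : B = ⊤ := by
    rw [eq_top_iff, ← adjoin_EN_jdF M, IntermediateField.adjoin_le_iff]
    rintro _ rfl
    exact hjM
  rw [eq_top_iff]
  intro x _
  have hx : x ∈ B := by rw [hB]; exact IntermediateField.mem_top
  exact hx

end Fermat.Agent.Lib.HeckeComm.H44

namespace Fermat.Agent.Lib.HeckeComm

open AlgebraicCurve ModularCurve Fermat.Agent.S24

local notation "Kb" => AlgebraicClosure ℚ

/-- **Package G**: `F_M` is generated over `F_X` by `j (q ^ M)`, for `X ∣ M`. -/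
theorem stmt_GenJ (X M : ℕ) [NeZero X] [NeZero M] (h : X ∣ M) : Stmt_GenJ X M h := by
  letI := (inclFN X M h).toRingHom.toAlgebra
  show (IntermediateField.adjoin (FN X) {jdF M M dvd_rfl} : IntermediateField (FN X) (FN M)) = ⊤
  let D : IntermediateField Kb (FN M) :=
    { (IntermediateField.adjoin (FN X) {jdF M M dvd_rfl} :
        IntermediateField (FN X) (FN M)).toSubfield with
      algebraMap_mem' := fun c => by
        have hc : algebraMap Kb (FN M) c = algebraMap (FN X) (FN M) (algebraMap Kb (FN X) c) :=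
          ((inclFN X M h).commutes c).symm
        rw [hc]
        exact (IntermediateField.adjoin (FN X) {jdF M M dvd_rfl} :
          IntermediateField (FN X) (FN M)).algebraMap_mem _ }
  have hD : (IntermediateField.adjoin Kb {jF M, jdF M M dvd_rfl} :
      IntermediateField Kb (FN M)) ≤ D := by
    rw [IntermediateField.adjoin_le_iff]
    rintro y (rfl | rfl)
    · have hj : jF M = algebraMap (FN X) (FN M) (jF X) := (inclFN_jF X M h).symm
      rw [hj]
      exact (IntermediateField.adjoin (FN X) {jdF M M dvd_rfl} :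
        IntermediateField (FN X) (FN M)).algebraMap_mem _
    · exact IntermediateField.subset_adjoin (FN X) _ (Set.mem_singleton _)
  rw [eq_top_iff]
  intro x _
  have hx : x ∈ (IntermediateField.adjoin Kb {jF M, jdF M M dvd_rfl} :
      IntermediateField Kb (FN M)) := by
    rw [H44.adjoin_jF_jdF]
    exact IntermediateField.mem_top
  exact hD hx

end Fermat.Agent.Lib.HeckeComm
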