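import Fermat.Agent.Lib.HeckeComm.H2_CommAll
import Fermat.Agent.Lib.HeckeComm.H44_GenJ

/-!
# COMM (helper2): the Hecke operators of `J₀(N)` commute — final, unconditional

* `heckeOperatorsCommuteBar N : HeckeOperatorsCommuteBar N` (all pairs of primes, any level `N`).
* `heckeNormFn_comm` : the norm functions commute.
* `heckeBeta_norm_eq` : base change of the norm in the Hecke square
  (`β_ℓ ∘ Norm_{F_{Nℓ'} / F_N} = Norm_{F_{Nℓ'ℓ} / F_{Nℓ}} ∘ β_ℓ`).
-/

set_option autoImplicit false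
set_option linter.style.haveILetI false
set_option linter.unusedSectionVars false

noncomputable section

namespace Fermat.Agent.Lib.HeckeComm

open AlgebraicCurve ModularCurve Fermat.Agent.S24 Fermat.Agent.GTor Fermat.Agent.GTor.H2

local notation "Kb" => AlgebraicClosure ℚ

/-- Base change of the norm in the Hecke square, unconditional. -/
theorem heckeBeta_norm_eq (N ℓ ℓ' : ℕ) [NeZero N] [NeZero ℓ] [NeZero ℓ']
    (hℓ : ℓ.Prime) (hℓ' : ℓ'.Prime) (hne : ℓ ≠ ℓ') (x : FN (N * ℓ')) :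
    heckeBetaBar Kb N ℓ (normAlongHom (heckeAlphaBar Kb N ℓ').toRingHom x)
      = normAlongHom (inclFN (N * ℓ) (N * ℓ' * ℓ) (by
          rw [mul_right_comm]; exact dvd_mul_right _ _)).toRingHom
          (heckeBetaBar Kb (N * ℓ') ℓ x) :=
  beta_norm_eq (fun X M _ _ h => stmt_GenJ X M h) N ℓ ℓ' hℓ hℓ' hne x

/-- The norm functions of two distinct primes commute. -/
theorem heckeNormFn_comm (N ℓ ℓ' : ℕ) [NeZero N] [NeZero ℓ] [NeZero ℓ']
    (hℓ : ℓ.Prime) (hℓ' : ℓ'.Prime) (hne : ℓ ≠ ℓ') (f : FN N) :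
    heckeNormFn Kb N ℓ (heckeNormFn Kb N ℓ' f) = heckeNormFn Kb N ℓ' (heckeNormFn Kb N ℓ f) :=
  heckeNormFn_comm_of_genJ (fun X M _ _ h => stmt_GenJ X M h) N ℓ ℓ' hℓ hℓ' hne f

/-- **COMM**: all Hecke operators of `J₀(N)` commute. -/
theorem heckeOperatorsCommuteBar (N : ℕ) [NeZero N] : HeckeOperatorsCommuteBar N :=
  heckeOperatorsCommuteBar_of_genJ (fun X M _ _ h => stmt_GenJ X M h) N

end Fermat.Agent.Lib.HeckeComm
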