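import Fermat.Agent.Lib.HeckeComm.H2_Deg
import Fermat.Agent.Lib.HeckeComm.H44_GenJ
import Fermat.Agent.Lib.HeckeComm.H2_CommOf
import Fermat.Agent.Lib.HeckeComm.H2_NormSeriesComm
import Fermat.Agent.RED.ES.H95_HeckeGal
import Fermat.Agent.S20.H19_Arith

/-!
# COMM (helper2): commutation of ALL Hecke operators of `J₀(N)`, given package G

`n_ℓ (n_ℓ' f) = Norm_{F_{Nℓ'ℓ} / F_N} (f (q ^ (ℓ' ℓ)))` by base change of the norm in the square
`F_N ⊂ F_{Nℓ'}`, `V_ℓ : F_N → F_{Nℓ}`, `V_ℓ : F_{Nℓ'} → F_{Nℓ'ℓ}`, `F_{Nℓ} ⊂ F_{Nℓ'ℓ}`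
(generator `j (q ^ (Nℓ'))`, degrees from `ψ`), and transitivity of the norm.
-/

set_option autoImplicit false
set_option linter.style.haveILetI false
set_option linter.unusedSectionVars false

noncomputable section

namespace Fermat.Agent.Lib.HeckeComm

open AlgebraicCurve ModularCurve Fermat.Agent.S24 Fermat.Agent.GTor Fermat.Agent.GTor.H2

local notation "Kb" => AlgebraicClosure ℚ

/-- The `ψ`-identity behind the equality of degrees. -/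
theorem psi_square {N ℓ ℓ' : ℕ} (hN : N ≠ 0) (hℓ : ℓ.Prime) (hℓ' : ℓ'.Prime) (hne : ℓ ≠ ℓ') :
    dedekindPsi (N * ℓ') * dedekindPsi (N * ℓ) = dedekindPsi N * dedekindPsi (N * ℓ' * ℓ) := by
  obtain ⟨a, N₁, hN₁, rfl⟩ := Nat.exists_eq_pow_mul_and_not_dvd hN ℓ hℓ.ne_one
  have hcℓ : Nat.Coprime ℓ N₁ := (Nat.Prime.coprime_iff_not_dvd hℓ).mpr hN₁
  have hcℓℓ' : Nat.Coprime ℓ ℓ' := (Nat.coprime_primes hℓ hℓ').mpr hne
  have hcℓ2 : Nat.Coprime ℓ (N₁ * ℓ') := Nat.Coprime.mul_right hcℓ hcℓℓ'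
  have e1 : ℓ ^ a * N₁ * ℓ' = ℓ ^ a * (N₁ * ℓ') := by ring
  have e2 : ℓ ^ a * N₁ * ℓ = ℓ ^ (a + 1) * N₁ := by ring
  have e3 : ℓ ^ a * N₁ * ℓ' * ℓ = ℓ ^ (a + 1) * (N₁ * ℓ') := by ring
  rw [e3, e1, e2, Fermat.Agent.S20.H19.dedekindPsi_mul (hcℓ.pow_left a),
    Fermat.Agent.S20.H19.dedekindPsi_mul (hcℓ2.pow_left a),
    Fermat.Agent.S20.H19.dedekindPsi_mul (hcℓ.pow_left (a + 1)),
    Fermat.Agent.S20.H19.dedekindPsi_mul (hcℓ2.pow_left (a + 1))]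
  ring

theorem jdF_congr (M : ℕ) [NeZero M] (d d' : ℕ) [NeZero d] [NeZero d'] (hd : d ∣ M) (hd' : d' ∣ M)
    (h : d = d') : jdF M d hd = jdF M d' hd' := by
  subst h
  rfl

theorem heckeNormFn_eq_normAlongHom (N ℓ : ℕ) [NeZero N] [NeZero ℓ] (f : FN N) :
    heckeNormFn Kb N ℓ f
      = normAlongHom (heckeAlphaBar Kb N ℓ).toRingHom (heckeBetaBar Kb N ℓ f) := rfl

/-- The norm along the inclusion only depends on the Laurent series. -/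
theorem normAlongHom_incl_congr (X M M' : ℕ) [NeZero X] [NeZero M] [NeZero M'] (h : X ∣ M)
    (h' : X ∣ M') (hMM' : M = M') (z : FN M) (z' : FN M')
    (hz : (z : LaurentSeries Kb) = (z' : LaurentSeries Kb)) :
    normAlongHom (inclFN X M h).toRingHom z = normAlongHom (inclFN X M' h').toRingHom z' := by
  subst hMM'
  have : z = z' := Subtype.ext hz
  subst this
  rfl

section Key

variable (hG : ∀ (X M : ℕ) [NeZero X] [NeZero M] (h : X ∣ M), Stmt_GenJ X M h)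
variable (N ℓ ℓ' : ℕ) [NeZero N] [NeZero ℓ] [NeZero ℓ']

/-- Equality of the degrees in the base change square. -/
theorem finrank_square (hℓ : ℓ.Prime) (hℓ' : ℓ'.Prime) (hne : ℓ ≠ ℓ') :
    (letI := (inclFN N (N * ℓ') (dvd_mul_right N ℓ')).toRingHom.toAlgebra;
      Module.finrank (FN N) (FN (N * ℓ')))
    = (letI := (inclFN (N * ℓ) (N * ℓ' * ℓ) (by
          rw [mul_right_comm]; exact dvd_mul_right _ _)).toRingHom.toAlgebra;
      Module.finrank (FN (N * ℓ)) (FN (N * ℓ' * ℓ))) := by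
  have h1 := stmt_Deg N (N * ℓ') (dvd_mul_right N ℓ')
  have h2 := stmt_Deg (N * ℓ) (N * ℓ' * ℓ) (by rw [mul_right_comm]; exact dvd_mul_right _ _)
  unfold Stmt_Deg at h1 h2
  have h3 := psi_square (NeZero.ne N) hℓ hℓ' hne
  rw [← h1, ← h2] at h3
  have hp1 := dedekindPsi_pos_h2 N
  have hp2 := dedekindPsi_pos_h2 (N * ℓ)
  -- `d₁ ψ(N) * (ψ(Nℓ)) = ψ(N) * (d₂ ψ(Nℓ))`
  have h4 : (letI := (inclFN N (N * ℓ') (dvd_mul_right N ℓ')).toRingHom.toAlgebra;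
      Module.finrank (FN N) (FN (N * ℓ'))) * (dedekindPsi N * dedekindPsi (N * ℓ))
    = (letI := (inclFN (N * ℓ) (N * ℓ' * ℓ) (by
          rw [mul_right_comm]; exact dvd_mul_right _ _)).toRingHom.toAlgebra;
      Module.finrank (FN (N * ℓ)) (FN (N * ℓ' * ℓ))) * (dedekindPsi N * dedekindPsi (N * ℓ)) := by
    linear_combination h3
  exact Nat.eq_of_mul_eq_mul_right (Nat.mul_pos hp1 hp2) h4

include hG in
/-- **Base change of the norm** in the Hecke square. -/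
theorem beta_norm_eq (hℓ : ℓ.Prime) (hℓ' : ℓ'.Prime) (hne : ℓ ≠ ℓ') (x : FN (N * ℓ')) :
    heckeBetaBar Kb N ℓ (normAlongHom (heckeAlphaBar Kb N ℓ').toRingHom x)
      = normAlongHom (inclFN (N * ℓ) (N * ℓ' * ℓ) (by
          rw [mul_right_comm]; exact dvd_mul_right _ _)).toRingHom
          (heckeBetaBar Kb (N * ℓ') ℓ x) := by
  have hdvd : N * ℓ ∣ N * ℓ' * ℓ := by rw [mul_right_comm]; exact dvd_mul_right _ _
  refine normAlongHom_baseChange (heckeAlphaBar Kb N ℓ').toRingHom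
    (inclFN (N * ℓ) (N * ℓ' * ℓ) hdvd).toRingHom (heckeBetaBar Kb N ℓ).toRingHom
    (heckeBetaBar Kb (N * ℓ') ℓ).toRingHom ?_ ?_ ?_ (jdF (N * ℓ') (N * ℓ') dvd_rfl) ?_ ?_ ?_ x
  · intro a
    apply Subtype.ext
    simp only [AlgHom.toRingHom_eq_coe, RingHom.coe_coe, coe_heckeBetaBar, coe_heckeAlphaBar,
      coe_inclFN]
  · exact stmt_Fin N (N * ℓ') (dvd_mul_right N ℓ')
  · exact stmt_Fin (N * ℓ) (N * ℓ' * ℓ) hdvd
  · exact hG N (N * ℓ') (dvd_mul_right N ℓ')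
  · have h := hG (N * ℓ) (N * ℓ' * ℓ) hdvd
    have hj : (heckeBetaBar Kb (N * ℓ') ℓ).toRingHom (jdF (N * ℓ') (N * ℓ') dvd_rfl)
        = jdF (N * ℓ' * ℓ) (N * ℓ' * ℓ) dvd_rfl := by
      show heckeBetaBar Kb (N * ℓ') ℓ (jdF (N * ℓ') (N * ℓ') dvd_rfl) = _
      rw [Fermat.Agent.RED.H95.beta_jdF]
      exact jdF_congr _ _ _ _ _ (mul_comm _ _)
    rw [hj]
    exact h
  · exact finrank_square N ℓ ℓ' hℓ hℓ' hne

include hG in
/-- `n_ℓ (n_ℓ' f)` is the norm of `f (q ^ (ℓ' ℓ))` from `F_{Nℓ'ℓ}` to `F_N`. -/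
theorem heckeNormFn_heckeNormFn (hℓ : ℓ.Prime) (hℓ' : ℓ'.Prime) (hne : ℓ ≠ ℓ') (f : FN N) :
    heckeNormFn Kb N ℓ (heckeNormFn Kb N ℓ' f)
      = normAlongHom (inclFN N (N * ℓ' * ℓ) (by
          rw [mul_assoc]; exact dvd_mul_right _ _)).toRingHom
          (heckeBetaBar Kb (N * ℓ') ℓ (heckeBetaBar Kb N ℓ' f)) := by
  have hdvd : N * ℓ ∣ N * ℓ' * ℓ := by rw [mul_right_comm]; exact dvd_mul_right _ _
  have hcomp : (inclFN (N * ℓ) (N * ℓ' * ℓ) hdvd).toRingHom.comp (heckeAlphaBar Kb N ℓ).toRingHom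
      = (inclFN N (N * ℓ' * ℓ) (by rw [mul_assoc]; exact dvd_mul_right _ _)).toRingHom := by
    ext a
    simp only [RingHom.comp_apply, AlgHom.toRingHom_eq_coe, RingHom.coe_coe, coe_heckeAlphaBar,
      coe_inclFN]
  rw [heckeNormFn_eq_normAlongHom, heckeNormFn_eq_normAlongHom,
    beta_norm_eq hG N ℓ ℓ' hℓ hℓ' hne, normAlongHom_comp, hcomp]

include hG in
/-- **The norm functions of any two distinct primes commute.** -/
theorem heckeNormFn_comm_of_genJ (hℓ : ℓ.Prime) (hℓ' : ℓ'.Prime) (hne : ℓ ≠ ℓ') (f : FN N) :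
    heckeNormFn Kb N ℓ (heckeNormFn Kb N ℓ' f) = heckeNormFn Kb N ℓ' (heckeNormFn Kb N ℓ f) := by
  rw [heckeNormFn_heckeNormFn hG N ℓ ℓ' hℓ hℓ' hne, heckeNormFn_heckeNormFn hG N ℓ' ℓ hℓ' hℓ hne.symm]
  refine normAlongHom_incl_congr N _ _ _ _ (by ring) _ _ ?_
  rw [coe_heckeBetaBar, coe_heckeBetaBar, coe_heckeBetaBar, coe_heckeBetaBar]
  exact qExpand_comm ℓ ℓ' _

end Key

/-- **COMM from package G**: all Hecke operators of `J₀(N)` commute. -/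
theorem heckeOperatorsCommuteBar_of_genJ
    (hG : ∀ (X M : ℕ) [NeZero X] [NeZero M] (h : X ∣ M), Stmt_GenJ X M h)
    (N : ℕ) [NeZero N] : HeckeOperatorsCommuteBar N := by
  intro ℓ ℓ'
  by_cases hne : ℓ = ℓ'
  · rw [hne]
  · haveI : NeZero (ℓ : ℕ) := ⟨ℓ.2.ne_zero⟩
    haveI : NeZero (ℓ' : ℕ) := ⟨ℓ'.2.ne_zero⟩
    refine heckeOperatorBar_comm_of N ℓ ℓ' fun f _ => ?_
    exact heckeNormFn_comm_of_genJ hG N ℓ ℓ' ℓ.2 ℓ'.2 (fun h => hne (Subtype.ext h)) f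

end Fermat.Agent.Lib.HeckeComm
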