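import Fermat.Agent.Lib.HeckeComm.H2_CommOf
import Fermat.Agent.Lib.HeckeComm.H2_NormSeriesComm
import Fermat.Agent.GTor.H2_HKFinal

/-!
# COMM (helper2): the Hecke operators `T_ℓ`, `ℓ ∤ N`, of `J₀(N)` commute

`heckeOperatorBar_comm_good : ¬ ℓ ∣ N → ¬ ℓ' ∣ N → T_ℓ T_ℓ' = T_ℓ' T_ℓ` on `JZero N`,
unconditional.  (Norm series of helper95 / helper44 + formal commutation + the principle.)
-/

set_option autoImplicit false
set_option linter.style.haveILetI false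
set_option linter.unusedSectionVars false

noncomputable section

namespace Fermat.Agent.Lib.HeckeComm

open AlgebraicCurve ModularCurve Fermat.Agent.GTor Fermat.Agent.GTor.H2

local notation "Kb" => AlgebraicClosure ℚ

/-- The norm functions of two good primes commute. -/
theorem heckeNormFn_comm_good (N ℓ ℓ' : ℕ) [NeZero N] [NeZero ℓ] [NeZero ℓ']
    (hℓ : ℓ.Prime) (hℓ' : ℓ'.Prime) (hℓN : ¬ ℓ ∣ N) (hℓ'N : ¬ ℓ' ∣ N) (hne : ℓ ≠ ℓ')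
    (f : FNL Kb N) :
    heckeNormFn Kb N ℓ (heckeNormFn Kb N ℓ' f) = heckeNormFn Kb N ℓ' (heckeNormFn Kb N ℓ f) := by
  obtain ⟨ζ, hζ⟩ := exists_primitiveRoot_Qbar ℓ
  obtain ⟨ζ', hζ'⟩ := exists_primitiveRoot_Qbar ℓ'
  have hco : Nat.Coprime ℓ ℓ' := (Nat.coprime_primes hℓ hℓ').mpr hne
  apply Subtype.ext
  have h1 := stmt_NormSeries N ℓ hℓ hℓN (heckeNormFn Kb N ℓ' f)
  have h2 := stmt_NormSeries N ℓ' hℓ' hℓ'N f
  have h3 := stmt_NormSeries N ℓ' hℓ' hℓ'N (heckeNormFn Kb N ℓ f)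
  have h4 := stmt_NormSeries N ℓ hℓ hℓN f
  refine h1.trans ?_
  refine Eq.trans ?_ h3.symm
  rw [h2, h4]
  exact normSeries_comm ℓ ℓ' hco hζ hζ' _

/-- **The Hecke operators at the primes not dividing the level commute.** -/
theorem heckeOperatorBar_comm_good (N : ℕ) [NeZero N] (ℓ ℓ' : Nat.Primes)
    (hℓN : ¬ (ℓ : ℕ) ∣ N) (hℓ'N : ¬ (ℓ' : ℕ) ∣ N) :
    heckeOperatorBar N ℓ * heckeOperatorBar N ℓ' = heckeOperatorBar N ℓ' * heckeOperatorBar N ℓ := by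
  by_cases hne : ℓ = ℓ'
  · rw [hne]
  · haveI : NeZero (ℓ : ℕ) := ⟨ℓ.2.ne_zero⟩
    haveI : NeZero (ℓ' : ℕ) := ⟨ℓ'.2.ne_zero⟩
    refine heckeOperatorBar_comm_of N ℓ ℓ' fun f _ => ?_
    exact heckeNormFn_comm_good N ℓ ℓ' ℓ.2 ℓ'.2 hℓN hℓ'N (fun h => hne (Subtype.ext h)) f

end Fermat.Agent.Lib.HeckeComm
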